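/-
S29 row, layer A, piece `Orb` (helper493): a nonzero smooth `F[G_ℚ]`-module contains a nonzero
finite-dimensional stable subspace on which `Gal(ℚ̄/L)` acts trivially for a finite `L/ℚ`.
-/
import Fermat.Agent.S29.Defs

set_option autoImplicit false

namespace Fermat.Agent.S29.H493

open Fermat.Agent.S29

/-- PIECE `Orb`. -/
theorem exists_finite_stable_submodule {F : Type} [Field F] {M : Type} [AddCommGroup M]
    [Module F M] [Nontrivial M] (ρ : GQ →* Module.End F M) (hsm : IsSmoothRep ρ) :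
    ∃ W : Submodule F M, W ≠ ⊥ ∧ Module.Finite F W ∧ (∀ σ : GQ, ∀ x ∈ W, ρ σ x ∈ W) ∧
      ∃ L : IntermediateField ℚ (AlgebraicClosure ℚ), FiniteDimensional ℚ L ∧
        ∀ σ : GQ, (∀ y ∈ L, σ y = y) → ∀ x ∈ W, ρ σ x = x := by
  obtain ⟨x, hx⟩ := exists_ne (0 : M)
  obtain ⟨L₀, hL₀fd, hL₀⟩ := hsm x
  -- the orbit map
  set f : GQ → M := fun σ => ρ σ x with hf
  -- restriction to `L₀`
  let g : GQ → (L₀ →ₐ[ℚ] AlgebraicClosure ℚ) := fun σ => (σ : AlgebraicClosure ℚ →ₐ[ℚ] AlgebraicClosure ℚ).comp L₀.val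
  have hfix : ∀ σ τ : GQ, g σ = g τ → f σ = f τ := by
    intro σ τ hστ
    have h1 : ∀ y ∈ L₀, (σ⁻¹ * τ) y = y := by
      intro y hy
      have := DFunLike.congr_fun hστ ⟨y, hy⟩
      change σ y = τ y at this
      rw [AlgEquiv.mul_apply, ← this]
      exact AlgEquiv.symm_apply_apply σ y
    have h2 := hL₀ (σ⁻¹ * τ) h1
    have h3 : τ = σ * (σ⁻¹ * τ) := by group
    simp only [hf]
    rw [h3, map_mul, Module.End.mul_apply, h2]
  -- the orbit is finite
  have hfin : (Set.range f).Finite := by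
    classical
    let f' : (L₀ →ₐ[ℚ] AlgebraicClosure ℚ) → M := fun e =>
      if h : ∃ σ, g σ = e then f h.choose else 0
    have hsub : Set.range f ⊆ Set.range f' := by
      rintro _ ⟨σ, rfl⟩
      refine ⟨g σ, ?_⟩
      have h : ∃ τ, g τ = g σ := ⟨σ, rfl⟩
      simp only [f', dif_pos h]
      exact hfix _ _ h.choose_spec
    exact (Set.finite_range f').subset hsub
  refine ⟨Submodule.span F (Set.range f), ?_, Module.Finite.span_of_finite F hfin, ?_, ?_⟩
  · intro hbot
    have hxW : x ∈ Submodule.span F (Set.range f) :=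
      Submodule.subset_span ⟨1, by simp [hf]⟩
    rw [hbot, Submodule.mem_bot] at hxW
    exact hx hxW
  · intro σ y hy
    induction hy using Submodule.span_induction with
    | mem y hy =>
      obtain ⟨τ, rfl⟩ := hy
      refine Submodule.subset_span ⟨σ * τ, ?_⟩
      simp only [hf, map_mul, Module.End.mul_apply]
    | zero => simp
    | add y z _ _ hy hz => rw [map_add]; exact Submodule.add_mem _ hy hz
    | smul c y _ hy => rw [map_smul]; exact Submodule.smul_mem _ c hy
  · refine ⟨IntermediateField.normalClosure ℚ L₀ (AlgebraicClosure ℚ), inferInstance, ?_⟩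
    intro τ hτ y hy
    induction hy using Submodule.span_induction with
    | mem y hy =>
      obtain ⟨σ, rfl⟩ := hy
      -- `σ⁻¹ τ σ` fixes `L₀`
      have h1 : ∀ y ∈ L₀, (σ⁻¹ * τ * σ) y = y := by
        intro y hy
        have hmem : σ y ∈ IntermediateField.normalClosure ℚ L₀ (AlgebraicClosure ℚ) := by
          have : (g σ).fieldRange ≤ IntermediateField.normalClosure ℚ L₀ (AlgebraicClosure ℚ) :=
            AlgHom.fieldRange_le_normalClosure (g σ)
          exact this ⟨⟨y, hy⟩, rfl⟩
        rw [AlgEquiv.mul_apply, AlgEquiv.mul_apply, hτ _ hmem]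
        exact AlgEquiv.symm_apply_apply σ y
      have h2 := hL₀ (σ⁻¹ * τ * σ) h1
      have h3 : τ * σ = σ * (σ⁻¹ * τ * σ) := by group
      simp only [hf]
      rw [← Module.End.mul_apply, ← map_mul, h3, map_mul, Module.End.mul_apply, h2]
    | zero => simp
    | add y z _ _ hy hz => rw [map_add, hy, hz]
    | smul c y _ hy => rw [map_smul, hy]

end Fermat.Agent.S29.H493
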