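/-
S29 row, layer A, piece `Res` (helper493): a ring hom from the ring of algebraic integers to a
field of characteristic `p` factors through an algebraically closed field of characteristic `p`
(namely the quotient by its kernel).
-/
import Fermat.Agent.S29.Defs

set_option autoImplicit false

namespace Fermat.Agent.S29.H493

open Polynomial

/-- The kernel of a ring hom from the algebraic integers to a field of characteristic `p` is a
maximal ideal. -/
theorem Res_ker_isMaximal {p : ℕ} (hp : p.Prime) {k : Type} [Field k] [CharP k p]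
    (φ : integralClosure ℤ ℂ →+* k) : (RingHom.ker φ).IsMaximal := by
  have : (RingHom.ker φ).IsPrime := RingHom.ker_isPrime φ
  apply Ideal.isMaximal_of_isIntegral_of_isMaximal_comap (R := ℤ) (RingHom.ker φ)
  have hcomap : (RingHom.ker φ).comap (algebraMap ℤ (integralClosure ℤ ℂ)) =
      Ideal.span {(p : ℤ)} := by
    ext n
    rw [Ideal.mem_comap, RingHom.mem_ker, Ideal.mem_span_singleton]
    have : φ (algebraMap ℤ (integralClosure ℤ ℂ) n) = (n : k) := by
      rw [eq_intCast, map_intCast]
    rw [this]
    exact CharP.intCast_eq_zero_iff k p n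
  rw [hcomap]
  have hpi : Prime (p : ℤ) := Nat.prime_iff_prime_int.mp hp
  exact PrincipalIdealRing.isMaximal_of_irreducible hpi.irreducible

/-- The quotient of the ring of algebraic integers by a maximal ideal is algebraically closed. -/
theorem Res_isAlgClosed_quotient (P : Ideal (integralClosure ℤ ℂ)) [P.IsMaximal] :
    @IsAlgClosed (integralClosure ℤ ℂ ⧸ P) (Ideal.Quotient.field P) := by
  let _ : Field (integralClosure ℤ ℂ ⧸ P) := Ideal.Quotient.field P
  apply IsAlgClosed.of_exists_root
  intro f hf hirr
  have hsurj : Function.Surjective (Ideal.Quotient.mk P) := Ideal.Quotient.mk_surjective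
  have hlift : f ∈ Polynomial.lifts (Ideal.Quotient.mk P) := by
    rw [Polynomial.mem_lifts]
    exact Polynomial.map_surjective _ hsurj f
  obtain ⟨q, hqf, hqdeg, hqm⟩ := Polynomial.lifts_and_natDegree_eq_and_monic hlift hf
  -- a complex root of `q`
  have hdeg : (q.map (algebraMap (integralClosure ℤ ℂ) ℂ)).degree ≠ 0 := by
    rw [Polynomial.degree_map_eq_of_injective
      (FaithfulSMul.algebraMap_injective (integralClosure ℤ ℂ) ℂ)]
    intro h0
    have hnd : q.natDegree = 0 := Polynomial.natDegree_eq_zero_iff_degree_le_zero.mpr (le_of_eq h0)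
    have hfd : f.natDegree = 0 := by rw [← hqdeg]; exact hnd
    have hf1 : f = 1 := by
      have := Polynomial.eq_C_of_natDegree_eq_zero hfd
      have hlc : f.leadingCoeff = 1 := hf
      rw [Polynomial.leadingCoeff, hfd] at hlc
      rw [this, hlc, map_one]
    exact hirr.not_isUnit (hf1 ▸ isUnit_one)
  obtain ⟨z, hz⟩ := IsAlgClosed.exists_root _ hdeg
  have hzR : IsIntegral (integralClosure ℤ ℂ) z := by
    refine ⟨q, hqm, ?_⟩
    rw [Polynomial.eval₂_eq_eval_map]
    exact hz
  have hzZ : IsIntegral ℤ z := isIntegral_trans z hzR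
  let w : integralClosure ℤ ℂ := ⟨z, hzZ⟩
  have hw : q.eval w = 0 := by
    apply FaithfulSMul.algebraMap_injective (integralClosure ℤ ℂ) ℂ
    rw [map_zero, ← Polynomial.eval_map_apply] -- eval (algebraMap w) (q.map _) 
    exact hz
  refine ⟨Ideal.Quotient.mk P w, ?_⟩
  rw [← hqf, Polynomial.eval_map_apply, hw, map_zero]

/-- PIECE `Res`: `φ` factors through an algebraically closed field of characteristic `p`. -/
theorem exists_algClosed_factor {p : ℕ} (hp : p.Prime) {k : Type} [Field k] [CharP k p]
    (φ : integralClosure ℤ ℂ →+* k) :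
    ∃ (F : Type) (_ : Field F) (_ : IsAlgClosed F) (_ : CharP F p)
      (ψ : integralClosure ℤ ℂ →+* F) (ι : F →+* k), ι.comp ψ = φ := by
  have hmax : (RingHom.ker φ).IsMaximal := Res_ker_isMaximal hp φ
  refine ⟨integralClosure ℤ ℂ ⧸ RingHom.ker φ, Ideal.Quotient.field (RingHom.ker φ),
    Res_isAlgClosed_quotient (RingHom.ker φ), ?_, Ideal.Quotient.mk (RingHom.ker φ),
    RingHom.kerLift φ, ?_⟩
  · exact RingHom.charP (RingHom.kerLift φ) (RingHom.kerLift_injective φ) p
  · ext x
    simp

end Fermat.Agent.S29.H493
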